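import Mathlib
import Fermat.Agent.FF4.Hecke2.Defs
import Fermat.Agent.BR2.SetupOfData
import Fermat.Agent.BR.LevelTransfer
import Fermat.Agent.BR2.LevelMaps

/-!
# PROGRAMME II, block A2 (K1), leaf L4: the contract `K1Out` (the FINAL statement of K1 in the
vocabulary of the skeleton)

`Dt : ModularData M q B hB hqM` (here `q = p` is the residue characteristic), `x ∈ J₀(Mq)[q]` killed
by the two degeneracy maps.  For any two crossings `e`, `e'` of the special fibre:

* the slopes `a`, `a'` of `x` at `e`, `e'` (helper24's `Hecke2.IsSlope`: the order at the branch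
  point `s₁ e` of a residue of `f` on the source component, modulo `q`, `q D = div f`);
* an integer `n` with `n ≡ a - a' (mod q)`, and `β, u ∈ ℚ̄` with `β ^ q = q ^ n * u`, `u` a `B`-unit
  fixed by the inertia group of `B`, and `β` fixed by every inertia element fixing `x`.

These are literally the hypotheses on `(β, u, n)` of helper21's `K3Beta.K3BetaOut` (endgame C3),
whose conclusion `q ∣ n` then reads `a = a'`: THE SLOPE VECTOR OF `x` IS DIAGONAL
(`slope_eq_of_dvd`).

Statement only; the proof is the K1 chain (#1834 ≡ #1835: twist roots, lead normalisation,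
Hilbert 90 in the completed component fields, tube identity, algebraic approximation).
-/

set_option autoImplicit false
set_option linter.unusedSectionVars false
set_option linter.dupNamespace false
set_option synthInstance.maxHeartbeats 400000

noncomputable section

namespace Fermat.Agent.FF4.K1Out

open AlgebraicCurve ModularCurve IsLocalRing Fermat.Agent.X0 Fermat.Agent.BR.SS
  Fermat.Agent.BR.S0 Fermat.Agent.BR.S0.RedModular Fermat.Agent.BR.Final
  Fermat.Agent.BR.S0.PointDict Fermat.Agent.BR2.SetupOfData Fermat.Agent.BR Fermat.Agent.FF4.Hecke2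

variable {M q : ℕ} [NeZero M] [hq : Fact q.Prime]
variable {B : ValuationSubring Kb} {hB : B.LiesOverPrime q} {hqM : ¬ q ∣ M}
variable [IsAlgClosed (ResidueField B)]

/-- **Contract K1Out.** -/
def K1Out (Dt : ModularData M q B hB hqM) : Prop :=
  ∀ x : JZero (M * q), q • x = 0 →
    LevelTransfer.alphaDown M q x = 0 → BR2.LevelMaps.betaDown M q x = 0 →
    ∀ e e' : Crossing (chartDataModular B hB hqM),
      ∃ (a a' : ZMod q) (n : ℤ) (β u : Kb),
        IsSlope (setup Dt) q x e a ∧ IsSlope (setup Dt) q x e' a' ∧
        (n : ZMod q) = a - a' ∧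
        β ^ q = (q : Kb) ^ n * u ∧ B.valuation u = 1 ∧
        (∀ t ∈ B.inertiaSubgroupIn ℚ, t u = u) ∧
        (∀ s ∈ B.inertiaSubgroupIn ℚ, s • x = x → s β = β)

/-- the consumer: if the exponent is divisible by `q` the two slopes agree -/
theorem slope_eq_of_dvd {a a' : ZMod q} {n : ℤ} (h : (n : ZMod q) = a - a')
    (hn : (q : ℤ) ∣ n) : a = a' := by
  have h0 : (n : ZMod q) = 0 := (ZMod.intCast_zmod_eq_zero_iff_dvd n q).mpr hn
  rw [h0] at h
  exact (sub_eq_zero.mp h.symm)

end Fermat.Agent.FF4.K1Out
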