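import Mathlib
import Fermat.Agent.FF4.K1Out.Contract
import Fermat.Agent.FF4.Approx.Instance

/-!
# PROGRAMME II, block A2 (K1), leaf L4: from the geometric statement `GeoOut` (output of the
assembly N7, in the completion `Ω = OmegaB B hB`) to the contract `K1Out`

`GeoOut Dt` is THE INTERFACE between the geometric assembly (helper11's `k1_gamma_thick_one` at the
modular tower) and the arithmetic bridge (helper6's `Approx.exists_root_of_geo`):
for `x ∈ J₀(Mq)[q]` killed by the two degeneracy maps and two crossings `e`, `e'` there are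
integers `a`, `a'` lifting the slopes of `x` at `e`, `e'`, a subfield `K' ⊆ ℚ̄` stable under the
inertia group `I` on which `I` acts through a finite image, and `υ β : Ω` with

  `(ι q) ^ (a - a') * υ = β ^ q`,  `‖υ‖ = 1`,  `υ ∈ closure (ι K')`,  `υ` fixed by `I`,
  `β` fixed by every element of `I` fixing `x`.

`k1Out_of_geoOut : GeoOut Dt → K1Out Dt`.
-/

set_option autoImplicit false
set_option linter.unusedSectionVars false
set_option linter.dupNamespace false
set_option synthInstance.maxHeartbeats 400000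

noncomputable section

namespace Fermat.Agent.FF4.K1Out

open AlgebraicCurve ModularCurve IsLocalRing Fermat.Agent.X0 Fermat.Agent.BR.SS
  Fermat.Agent.BR.S0 Fermat.Agent.BR.S0.RedModular Fermat.Agent.BR.Final
  Fermat.Agent.BR.S0.PointDict Fermat.Agent.BR2.SetupOfData Fermat.Agent.BR Fermat.Agent.FF4.Hecke2
  Fermat.Agent.FF3.AbsB

variable {M q : ℕ} [NeZero M] [hq : Fact q.Prime]
variable {B : ValuationSubring Kb} {hB : B.LiesOverPrime q} {hqM : ¬ q ∣ M}
variable [IsAlgClosed (ResidueField B)]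

/-- **The geometric output of K1** (conclusion of the assembly N7 read in `Ω`). -/
def GeoOut (Dt : ModularData M q B hB hqM) : Prop :=
  ∀ x : JZero (M * q), q • x = 0 →
    LevelTransfer.alphaDown M q x = 0 → BR2.LevelMaps.betaDown M q x = 0 →
    ∀ e e' : Crossing (chartDataModular B hB hqM),
      ∃ (K' : Subfield Kb) (a a' : ℤ) (υ β : OmegaB B hB),
        IsSlope (setup Dt) q x e (a : ZMod q) ∧ IsSlope (setup Dt) q x e' (a' : ZMod q) ∧
        (∀ s ∈ B.inertiaSubgroupIn ℚ, ∀ y ∈ K', s y ∈ K') ∧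
        (Set.range fun s : B.inertiaSubgroupIn ℚ =>
          fun y : K' => (s : Kb ≃ₐ[ℚ] Kb) (y : Kb)).Finite ∧
        υ ∈ (K'.map (datumKb B hB).ι).topologicalClosure ∧ ‖υ‖ = 1 ∧
        (∀ (s : Kb ≃ₐ[ℚ] Kb) (hs : s ∈ B.inertiaSubgroupIn ℚ),
          sigmaOmegaI (hB := hB) s hs υ = υ) ∧
        (datumKb B hB).ι (q : Kb) ^ (a - a') * υ = β ^ q ∧
        (∀ (s : Kb ≃ₐ[ℚ] Kb) (hs : s ∈ B.inertiaSubgroupIn ℚ), s • x = x →
          sigmaOmegaI (hB := hB) s hs β = β)

/-- **L4**: the geometric output gives the contract `K1Out`. -/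
theorem k1Out_of_geoOut (Dt : ModularData M q B hB hqM) (h : GeoOut Dt) : K1Out Dt := by
  intro x hx hα hβ e e'
  obtain ⟨K', a, a', υ, β, hs, hs', hstab, hfin, hυmem, hυ1, hυ, hid, hβfix⟩ := h x hx hα hβ e e'
  obtain ⟨β'', u, -, hpow, hval, hufix, hβ''⟩ :=
    Approx.exists_root_of_geo B hB K' hstab hfin hq.out.ne_zero (a - a') hυ hυmem hυ1 hid
  refine ⟨(a : ZMod q), (a' : ZMod q), a - a', β'', u, hs, hs', by push_cast; ring, hpow, hval,
    hufix, fun s hsI hsx => hβ'' s hsI (hβfix s hsI hsx)⟩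

end Fermat.Agent.FF4.K1Out
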