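import Mathlib
import Fermat.Agent.FF4.K1Out.GeoOut
import Fermat.Agent.FF4.GeoAssembly.K1Modular
import Fermat.Agent.FF4.SlopeBridgeModular
import Fermat.Agent.FF4.RatRepModular
import Fermat.Agent.FF4.ThickOne
import Fermat.Agent.FF4.Approx.GeoGlue

/-!
# PROGRAMME II, block A2 (K1), leaf L4: `GeoOut Dt` from helper11's `k1_modular` and an instance
of the contract `TowerAction` (helper27)

`geoOut_of_towerAction` : if at every Galois-stable level `L` there is a `TowerAction` whose action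
on `Ω = OmegaB B hB` is `sigmaOmegaI`, then `GeoOut Dt` (hence `K1Out Dt`, `k1Out_of_geoOut`).

Steps: invariant representative `(Dv, f)` of `x` (helper5's `exists_fixed_isRep_modular` for the
stabiliser of `x` in the inertia group); one Galois-stable level above the levels of `k1_modular` and
of the two tube supports; `k1_modular`; thickness one (helper5's `ThickOne`); slopes
(`SlopeBridge.isSlope_modular` + the order identity of the node); coercion `K₁S → Ω`.
-/

set_option autoImplicit false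
set_option linter.unusedSectionVars false
set_option linter.dupNamespace false
set_option linter.style.haveILetI false
set_option synthInstance.maxHeartbeats 400000
set_option maxHeartbeats 4000000

noncomputable section

local instance (priority := 100000) Fermat.Agent.FF4.FastInst.instAlgFullC_GeoOutProof
    {k : Type*} [Field k] (N : ℕ) :
    Algebra k ↥(ModularCurve.modularFunctionFieldFullC k N) := inferInstance
local instance (priority := 100000) Fermat.Agent.FF4.FastInst.instFieldFullC_GeoOutProof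
    {k : Type*} [Field k] (N : ℕ) :
    Field ↥(ModularCurve.modularFunctionFieldFullC k N) := inferInstance

namespace Fermat.Agent.FF4.K1Out

open AlgebraicCurve ModularCurve IsLocalRing Fermat.Agent.X0 Fermat.Agent.BR.Inst.Levels
  Fermat.Agent.BR.Inst.FKCover Fermat.Agent.Red Fermat.Agent.BR.SS Fermat.Agent.BR2.Filt
  Fermat.Agent.BR.S0 Fermat.Agent.BR.S0.RedModular Fermat.Agent.BR.Final
  Fermat.Agent.BR2.SetupOfData Fermat.Agent.BR Fermat.Agent.FF3.B4
  Fermat.Agent.FF3.LevelDesc Fermat.Agent.BR.Inst.AnnulusInstFinal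
  Fermat.Agent.FF3 Fermat.Agent.FF3.Amice Fermat.Agent.FF3.DVCompl
  Fermat.Agent.FF3.ExpandBR Fermat.Agent.FF4.BdryFrac
  Fermat.Agent.FF4.AmiceLead Fermat.Agent.FF4.ModularLead Fermat.Agent.FF3.AmiceU
  Fermat.Agent.FF4.NodeIdentity Fermat.Agent.FF4.GeoAssembly
  Fermat.Agent.BR.S0.PointDict Fermat.Agent.FF3.AbsB Fermat.Agent.FF4.Hecke2

attribute [local instance] normedAlgebraSubfield
attribute [local instance] nontrivial_bAmice

local notation "GQ" => (AlgebraicClosure ℚ ≃ₐ[ℚ] AlgebraicClosure ℚ)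

variable {M q : ℕ} [NeZero M] [hq : Fact q.Prime]
variable {B : ValuationSubring Kb} {hB : B.LiesOverPrime q} {hqM : ¬ q ∣ M}
variable [IsAlgClosed (ResidueField B)]

/-- the norm condition of the embedding `ι : ℚ̄ → Ω` -/
theorem hι (c : Kb) : ‖(datumKb B hB).ι c‖ ≤ 1 ↔ c ∈ B := (datumKb B hB).norm_ι_le_one_iff

/-- **`GeoOut` from `k1_modular_thick_one` and an instance of `TowerAction`.** -/
theorem geoOut_of_towerAction (Dt : ModularData M q B hB hqM) (h2 : nuTwo M = 0)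
    (h3 : nuThree M = 0)
    (hTA : ∀ L : Finset Kb, GalStable L →
      ∃ TA : TowerAction B hB hqM (nonempty_crossing Dt) (datumKb B hB).ι
          (fun c => hι (B := B) (hB := hB) c) L (datumL Dt L) (datumL_hO Dt L) (datumL_hw Dt L),
        ∀ (t : ↥(B.inertiaSubgroupIn ℚ)) (c : OmegaB B hB),
          TA.σΩ t c = sigmaOmegaI (hB := hB) (t : GQ) t.2 c) :
    GeoOut Dt := by
  intro x hx hα hβ e e'
  classical
  have hq0 : q ≠ 0 := hq.out.ne_zero
  -- (a) the invariant representative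
  obtain ⟨Dv, f, hR, -, hfix⟩ := RatRep.exists_fixed_isRep_modular (M * q)
    {s : GQ | s ∈ B.inertiaSubgroupIn ℚ ∧ s • x = x} hx (fun σ hσ => hσ.2)
  -- (b) the level
  obtain ⟨L₀, hL₀⟩ := k1_modular_thick_one (datumKb B hB).ι
    (fun c => hι (B := B) (hB := hB) c) Dt h2 h3 hx hα hβ hR e e'
  obtain ⟨L₂, hL₂⟩ := exists_level_of_function (M := M) (q := q)
    (annulusLevels_modular_final B hB hqM (nonempty_crossing Dt) e).u f (tubeSupp Dt Dv e)
  obtain ⟨L₃, hL₃⟩ := exists_level_of_function (M := M) (q := q)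
    (annulusLevels_modular_final B hB hqM (nonempty_crossing Dt) e').u f (tubeSupp Dt Dv e')
  obtain ⟨L, hLL, hL⟩ := exists_galStable (L₀ ∪ L₂ ∪ L₃)
  have hL₀L : L₀ ⊆ L := fun a ha => hLL (Finset.mem_union_left _ (Finset.mem_union_left _ ha))
  have hL₂L : L₂ ⊆ L := fun a ha => hLL (Finset.mem_union_left _ (Finset.mem_union_right _ ha))
  have hL₃L : L₃ ⊆ L := fun a ha => hLL (Finset.mem_union_right _ ha)
  obtain ⟨hf, hk⟩ := hL₀ L hL₀L hL
  obtain ⟨TA, hTAσ⟩ := hTA L hL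
  -- notation
  set ι := (datumKb B hB).ι with hιdef
  have hιB : ∀ c : Kb, ‖ι c‖ ≤ 1 ↔ c ∈ B := fun c => hι (B := B) (hB := hB) c
  have hϖ := isDiscreteNorm_unifS B hB hqM (nonempty_crossing Dt) e ι hιB L
  have hne0 : (⟨f, hf⟩ : FS (M * q) q L) ≠ 0 := fun h0 => hR.2.1 (congrArg Subtype.val h0)
  have hemb₀ : (CD B hB hqM (nonempty_crossing Dt) L (datumL Dt L) (datumL_hO Dt L)
      (datumL_hw Dt L)).emb 0 ⟨f, hf⟩ ≠ 0 := by
    rw [Ne, map_eq_zero_iff _ ((CD B hB hqM (nonempty_crossing Dt) L (datumL Dt L)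
      (datumL_hO Dt L) (datumL_hw Dt L)).emb 0).injective]
    exact hne0
  have hemb₁ : (CD B hB hqM (nonempty_crossing Dt) L (datumL Dt L) (datumL_hO Dt L)
      (datumL_hw Dt L)).emb 1 ⟨f, hf⟩ ≠ 0 := by
    rw [Ne, map_eq_zero_iff _ ((CD B hB hqM (nonempty_crossing Dt) L (datumL Dt L)
      (datumL_hO Dt L) (datumL_hw Dt L)).emb 1).injective]
    exact hne0
  -- leading data on the four circles
  obtain ⟨cX, aX, hX⟩ := exists_hasLead hϖ (expansion_ne_zero (phiSrc B hB hqM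
    (nonempty_crossing Dt) e ι hιB L (datumL Dt L) (datumL_hO Dt L) (datumL_hw Dt L)) hemb₀)
  obtain ⟨cX', aX', hX'⟩ := exists_hasLead hϖ (expansion_ne_zero (phiSrc B hB hqM
    (nonempty_crossing Dt) e' ι hιB L (datumL Dt L) (datumL_hO Dt L) (datumL_hw Dt L)) hemb₀)
  obtain ⟨cY, aY, hY⟩ := exists_hasLead hϖ (expansion_ne_zero (phiTgt B hB hqM
    (nonempty_crossing Dt) e ι hιB L (datumL Dt L) (datumL_hO Dt L) (datumL_hw Dt L)) hemb₁)
  obtain ⟨cY', aY', hY'⟩ := exists_hasLead hϖ (expansion_ne_zero (phiTgt B hB hqM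
    (nonempty_crossing Dt) e' ι hιB L (datumL Dt L) (datumL_hO Dt L) (datumL_hw Dt L)) hemb₁)
  -- (GEO)
  obtain ⟨υ, β, hυfix, hυ1, hid, hβfix⟩ := hk TA cY cY' aY aY' hY hY'
  -- the slopes
  have slope : ∀ (e₀ : Crossing (chartDataModular B hB hqM))
      (hTS : ∀ Q ∈ tubeSupp Dt Dv e₀,
        evalAt Q (annulusLevels_modular_final B hB hqM (nonempty_crossing Dt) e₀).u ∈ L)
      (cX cY : K₁S (M := M) (q := q) ι L) (aX aY : ℤ),
      HasLead (phiSrc B hB hqM (nonempty_crossing Dt) e₀ ι hιB L (datumL Dt L) (datumL_hO Dt L)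
        (datumL_hw Dt L) ((CD B hB hqM (nonempty_crossing Dt) L (datumL Dt L) (datumL_hO Dt L)
          (datumL_hw Dt L)).emb 0 ⟨f, hf⟩)) cX aX →
      HasLead (phiTgt B hB hqM (nonempty_crossing Dt) e₀ ι hιB L (datumL Dt L) (datumL_hO Dt L)
        (datumL_hw Dt L) ((CD B hB hqM (nonempty_crossing Dt) L (datumL Dt L) (datumL_hO Dt L)
          (datumL_hw Dt L)).emb 1 ⟨f, hf⟩)) cY aY →
      IsSlope (setup Dt) q x e₀ (((-aY : ℤ)) : ZMod q) := by
    intro e₀ hTS cX cY aX aY hX hY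
    obtain ⟨A, -, -, hnode⟩ := node_identity_K₁S B hB hqM (nonempty_crossing Dt) e₀ ι hιB L
      (datumL Dt L) (datumL_hO Dt L) (datumL_hw Dt L) hne0 (tubeSupp Dt Dv e₀)
      (mem_tubeSupp_iff Dt hR e₀) hTS q (fun Q => (Dv : Divisor Kb (Fb (M * q))) Q)
      (fun Q _ => ord_eq_of_isRep hR Q)
    obtain ⟨-, hsum⟩ := hnode cX cY aX aY hX hY
    have hX'' := (hasLead_phiSrc_iff B hB hqM (nonempty_crossing Dt) e₀ ι hιB L (datumL Dt L)
      (datumL_hO Dt L) (datumL_hw Dt L) _ cX aX).mp hX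
    have hs := SlopeBridge.isSlope_modular B hB hqM (nonempty_crossing Dt) e₀ ι hιB L
      (datumL Dt L) (datumL_hO Dt L) (datumL_hw Dt L) Dt (m := q) (x := x) (D' := Dv)
      (h := ⟨f, hf⟩) hR hX''
    have hcast : ((aX : ℤ) : ZMod q) = ((-aY : ℤ) : ZMod q) := by
      have h1 : aX = -aY + (q : ℤ) * ∑ Q ∈ tubeSupp Dt Dv e₀,
          (Dv : Divisor Kb (Fb (M * q))) Q := by linarith
      rw [h1]
      push_cast
      rw [ZMod.natCast_self, zero_mul, add_zero]
    rw [← hcast]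
    exact hs
  have hs := slope e (fun Q hQ => (hL₂ L hL₂L).2 Q hQ) cX cY aX aY hX hY
  have hs' := slope e' (fun Q hQ => (hL₃ L hL₃L).2 Q hQ) cX' cY' aX' aY' hX' hY'
  -- the action on `Ω`
  have hσΩ : ∀ (s : GQ) (hsI : s ∈ B.inertiaSubgroupIn ℚ) (c : K₁S (M := M) (q := q) ι L),
      sigmaOmegaI (hB := hB) s hsI (c : OmegaB B hB) =
        ((TA.σS ⟨s, hsI⟩ c : K₁S (M := M) (q := q) ι L) : OmegaB B hB) := by
    intro s hsI c
    rw [TA.coe_σS, hTAσ]
  -- the constants of the level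
  have hstab : ∀ s ∈ B.inertiaSubgroupIn ℚ, ∀ y ∈ KFS (M := M) (q := q) L,
      s y ∈ KFS (M := M) (q := q) L := by
    intro s _ y hy
    rw [mem_KFS] at hy ⊢
    have h1 := hL.gal_smul_mem_FKs_of_mem q (M * q) s hy
    rwa [Fermat.Agent.FF3.InertiaLevels.gal_smul_algebraMap] at h1
  have hfinS : (Set.range fun t : ↥(B.inertiaSubgroupIn ℚ) =>
      (TA.σS t : K₁S (M := M) (q := q) ι L → K₁S (M := M) (q := q) ι L)).Finite :=
    Approx.finite_range_sigma_of_equivariant TA.act₀ TA.fin₀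
      (iotaSrc B hB hqM (nonempty_crossing Dt) e ι hιB L (datumL Dt L) (datumL_hO Dt L)
        (datumL_hw Dt L)) TA.σS (TA.iotaSrc_σS e)
  have hfin : (Set.range fun s : B.inertiaSubgroupIn ℚ =>
      fun y : KFS (M := M) (q := q) L => (s : Kb ≃ₐ[ℚ] Kb) (y : Kb)).Finite :=
    Approx.finite_range_res_of_sigma B hB (B.inertiaSubgroupIn ℚ)
      (fun _ hsI => mem_decomposition_of_mem_inertia B hsI) (KFS (M := M) (q := q) L)
      (K₁S (M := M) (q := q) ι L)
      (fun y hy => Wc.le_Kc _ ⟨y, hy, rfl⟩) TA.σS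
      (fun t c => (hσΩ t.1 t.2 c).symm) hfinS
  refine ⟨KFS (M := M) (q := q) L, -aY, -aY', (υ : OmegaB B hB), (β : OmegaB B hB), hs, hs',
    hstab, hfin, υ.2, hυ1, fun s hsI => ?_, ?_, fun s hsI hsx => ?_⟩
  · rw [hσΩ s hsI υ, hυfix ⟨s, hsI⟩]
  · have h1 := congrArg (K₁S (M := M) (q := q) ι L).subtype hid
    rw [map_mul, map_zpow₀, map_pow, map_natCast] at h1
    have e1 : (-aY - -aY' : ℤ) = aY' - aY := by ring
    rw [e1, map_natCast]
    exact h1
  · rw [hσΩ s hsI β, hβfix ⟨s, hsI⟩ (hfix s ⟨hsI, hsx⟩)]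

/-- **K1 from an instance of the contract `TowerAction`** at every Galois-stable level. -/
theorem k1Out_of_towerAction (Dt : ModularData M q B hB hqM) (h2 : nuTwo M = 0)
    (h3 : nuThree M = 0)
    (hTA : ∀ L : Finset Kb, GalStable L →
      ∃ TA : TowerAction B hB hqM (nonempty_crossing Dt) (datumKb B hB).ι
          (fun c => hι (B := B) (hB := hB) c) L (datumL Dt L) (datumL_hO Dt L) (datumL_hw Dt L),
        ∀ (t : ↥(B.inertiaSubgroupIn ℚ)) (c : OmegaB B hB),
          TA.σΩ t c = sigmaOmegaI (hB := hB) (t : GQ) t.2 c) :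
    K1Out Dt :=
  k1Out_of_geoOut Dt (geoOut_of_towerAction Dt h2 h3 hTA)

end Fermat.Agent.FF4.K1Out
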