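/-
PROGRAMME II (S44), kernel K1, the seam `K1NodeOut` (helper16; request of helper1, msg 27146):
CONSERVATION AT THE NODES MODULO `q`.

`Dt : ModularData M q B hB hqM`, `x ∈ J₀(Mq)[q]`, `e` a crossing.  If `a` is the slope of `x` at `e`
seen from the source component (helper24's `Hecke2.IsSlope`: the order at `s₁ e` of a residue of `f`
on the component `0`, `q D = div f`), then `-a` is the slope seen from the target component
(`Hecke2.IsSlope'`: the order at `s₂ e` of a residue of `f` on the component `1`):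

  `ord_{s₁ e} g₁ + ord_{s₂ e} g₂ ≡ 0 (mod q)`.

Proof: helper5's node identity at the modular tower (`node_identity_modular_hasLead`:
`aX + aY = q · Σ_{Q ∈ tube} μ_Q` for the orders of the leading terms of the two boundary expansions
of `f` at the node `e`), helper27's `SlopeBridge` (`aX` is the order at `s₁ e` of a residue on the
source component) and its target-side mirror `SlopeBridgeTgt` (`aY` is the order at `s₂ e` of a
residue on the target component).  No newness, no Galois action, any `q`-torsion class.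
-/
import Mathlib
import Fermat.Agent.FF4.SlopeBridgeModular
import Fermat.Agent.FF4.K1Out.SlopeBridgeTgt
import Fermat.Agent.FF4.NodeIdentityModular
import Fermat.Agent.FF4.Hecke2.Defs
import Fermat.Agent.BR3.FiltMaps
import Fermat.Agent.Val.Conservation
import Fermat.Agent.FF3.AbsB.Kb
import Fermat.Agent.FF3.ExpPackComp.Pack
import Fermat.Agent.BR2.SetupOfData

set_option autoImplicit false
set_option linter.unusedSectionVars false
set_option synthInstance.maxHeartbeats 400000
set_option maxHeartbeats 4000000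

noncomputable section

namespace Fermat.Agent.FF4.K1Out

open AlgebraicCurve ModularCurve IsLocalRing Fermat.Agent.Red Fermat.Agent.X0
  Fermat.Agent.BR Fermat.Agent.BR.Centre Fermat.Agent.BR.S0 Fermat.Agent.BR.SS
  Fermat.Agent.BR.Refine Fermat.Agent.BR.S0.RedModular
  Fermat.Agent.BR.S0.RedHyp Fermat.Agent.BR.S0.PointDict Fermat.Agent.BR.Inst.AnnulusInstFinal
  Fermat.Agent.BR.Inst.Levels Fermat.Agent.BR.Inst.NodeInst Fermat.Agent.BR.Inst.LocSub
  Fermat.Agent.BR.ValTwo Fermat.Agent.BR.Final Fermat.Agent.BR2.SetupOfData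
  Fermat.Agent.FF3 Fermat.Agent.FF3.B4 Fermat.Agent.FF3.DVCompl Fermat.Agent.FF3.ExpandBR
  Fermat.Agent.FF3.BLift
  Fermat.Agent.FF4.AmiceLead Fermat.Agent.FF4.BdryFrac Fermat.Agent.BR2 Fermat.Agent.FF4.Hecke2

attribute [local instance] normedAlgebraSubfield
attribute [local instance] nontrivial_bAmice

local notation "Kb" => AlgebraicClosure ℚ

variable {M q : ℕ} [NeZero M] [hq : Fact q.Prime]
variable {B : ValuationSubring Kb} {hB : B.LiesOverPrime q} {hqM : ¬ q ∣ M}
variable [IsAlgClosed (ResidueField B)]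

/-- **Contract K1NodeOut** (helper1's literal): the slope of a `q`-torsion class at a crossing, seen
from the target component, is the opposite of the slope seen from the source component. -/
def K1NodeOut (Dt : ModularData M q B hB hqM) : Prop :=
  ∀ x : JZero (M * q), q • x = 0 →
    ∀ (e : Crossing (chartDataModular B hB hqM)) (a : ZMod q),
      IsSlope (setup Dt) q x e a → IsSlope' (setup Dt) q x e (-a)

/-- two residues of the same function on a component have the same order at every place -/
theorem ord_eq_of_isResidue {K F k : Type*} [Field K] [Field F] [Algebra K F] [Field k]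
    {A : ValuationSubring K} {π : A →+* k} {ι : Type*} {Ft : ι → Type*}
    [∀ v, Field (Ft v)] [∀ v, Algebra k (Ft v)] {ν : Type*}
    {S : SemistableSetup (F := F) A π ι Ft ν} {v : ι} {f : F} {g g' : Ft v}
    (h : Filt.IsResidue S v f g) (h' : Filt.IsResidue S v f g') (Q : Place k (Ft v)) :
    Q.ord g' = Q.ord g := by
  obtain ⟨a, ha, rfl⟩ := Fermat.Agent.BR3.FiltMaps.isResidue_unique h h'
  rw [Place.ord_mul _ ((map_ne_zero _).mpr ha) h.ne_zero,
    Fermat.Agent.Val.ord_algebraMap_of_ne_zero Q ha, zero_add]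

/-- **K1NodeOut**: conservation at the nodes modulo `q`, for every `q`-torsion class. -/
theorem k1NodeOut (Dt : ModularData M q B hB hqM) : K1NodeOut Dt := by
  classical
  intro x _ e a hsl
  obtain ⟨D', f, hR, g, hg, hord⟩ := hsl
  have hne : Nonempty (Crossing (chartDataModular B hB hqM)) := nonempty_crossing Dt
  have hf0 : f ≠ 0 := hR.2.1
  -- the zeros and poles of `f` in the tube of `e`
  set T : Finset (Place Kb (Fb (M * q))) :=
    ((q • (D' : Divisor Kb (Fb (M * q)))).support).filter
      (fun Q => Q ∈ tube (Final.setupFinal B hB hqM hne) e) with hTdef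
  have hT : ∀ Q, Q ∈ T ↔ Q ∈ tube (Final.setupFinal B hB hqM hne) e ∧ Q.ord f ≠ 0 := by
    intro Q
    rw [hTdef, Finset.mem_filter, Finsupp.mem_support_iff, hR.2.2 Q]
    exact and_comm
  -- a level containing `f` and the points of `T`
  obtain ⟨S, hS⟩ := Fermat.Agent.FF4.NodeIdentity.exists_level_of_function
    (annulusLevels_modular_final B hB hqM hne e).u f T
  obtain ⟨hfS, hTS⟩ := hS S (Finset.Subset.refl S)
  set h : FS (M * q) q S := ⟨f, hfS⟩ with hh
  have hh0 : h ≠ 0 := fun h0 => hf0 (congrArg Subtype.val h0)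
  -- the multiplicities
  have hμ : ∀ Q ∈ T, Q.ord ((h : FS (M * q) q S) : Fb (M * q)) =
      (q : ℤ) * (D' : Divisor Kb (Fb (M * q))) Q := by
    intro Q _
    show Q.ord f = _
    rw [← hR.2.2 Q, Finsupp.smul_apply, nsmul_eq_mul]
  -- the completion `(Ω, j)` of `(ℚ̄, B)` and the component data at the level `S`
  set d := AbsB.datumKb B hB with hd
  have hj : ∀ c : Kb, ‖d.ι c‖ ≤ 1 ↔ c ∈ B := fun c => d.norm_ι_le_one_iff
  set D : Fin 2 → Datum (FS (M * q) q S) := fun v => ExpPackComp.datum B hB hqM S v with hDdef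
  have hO : ∀ v (x : FS (M * q) q S),
      x ∈ (D v).O₀ ↔ (x : Fb (M * q)) ∈ (Final.setupFinal B hB hqM hne).O v :=
    fun v x => ExpPackComp.mem_datum_O₀_iff_setup B hB hqM (input Dt) rfl S v x
  have hw : ∀ v, (D v).w = unifFS (M := M) B hB S := fun v => ExpPackComp.datum_w B hB hqM S v
  -- the leading data of the two boundary expansions of `f` at the node `e`
  have hdv₁ : IsDV (CompPack.ofDatum (Final.setupFinal B hB hqM hne) D hO hw)
      ((Final.setupFinal B hB hqM hne).src e) := isDV_ofDatum D hO hw _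
  have hdv₂ : IsDV (CompPack.ofDatum (Final.setupFinal B hB hqM hne) D hO hw)
      ((Final.setupFinal B hB hqM hne).tgt e) := isDV_ofDatum D hO hw _
  have hx₁ : (CompPack.ofDatum (Final.setupFinal B hB hqM hne) D hO hw).emb
      ((Final.setupFinal B hB hqM hne).src e) h ≠ 0 := (map_ne_zero _).mpr hh0
  have hx₂ : (CompPack.ofDatum (Final.setupFinal B hB hqM hne) D hO hw).emb
      ((Final.setupFinal B hB hqM hne).tgt e) h ≠ 0 := (map_ne_zero _).mpr hh0
  have hX := hasLead₁ (nodeInput_modular B hB hqM hne e d.ι hj S D hO hw) hdv₁ hx₁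
  have hY := hasLead₂ (nodeInput_modular B hB hqM hne e d.ι hj S D hO hw) hdv₂ hx₂
  -- the node identity: `aX + aY = q · Σ μ`
  obtain ⟨A₁, -, -, hid⟩ := Fermat.Agent.FF4.NodeIdentity.node_identity_modular_hasLead
    B hB hqM hne e d.ι hj S D hO hw hh0 T hT hTS q
    (fun Q => (D' : Divisor Kb (Fb (M * q))) Q) hμ
  obtain ⟨-, hsum⟩ := hid _ _ _ _ hX hY
  -- the two orders are orders of residues at the two branches
  obtain ⟨g₁, hg₁, hord₁⟩ := SlopeBridge.exists_isResidue_of_hasLead
    (nodeInput_modular B hB hqM hne e d.ι hj S D hO hw) hdv₁ hX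
  obtain ⟨g₂, hg₂, hord₂⟩ := SlopeBridgeTgt.exists_isResidue_of_hasLead₂
    (nodeInput_modular B hB hqM hne e d.ι hj S D hO hw) hdv₂ hY
  -- the residue `g` of the hypothesis has the same order as `g₁`
  have e1 : ((Final.setupFinal B hB hqM hne).s₁ e).ord g₁ = ((setup Dt).s₁ e).ord g :=
    ord_eq_of_isResidue (S := Final.setupFinal B hB hqM hne) hg hg₁ _
  have key : ((((Final.setupFinal B hB hqM hne).s₁ e).ord g₁ : ℤ) : ZMod q) +
      ((((Final.setupFinal B hB hqM hne).s₂ e).ord g₂ : ℤ) : ZMod q) = 0 := by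
    rw [hord₁, hord₂, ← Int.cast_add, hsum, Int.cast_mul, Int.cast_natCast, ZMod.natCast_self,
      zero_mul]
  refine ⟨D', f, hR, g₂, hg₂, ?_⟩
  rw [← hord, ← e1]
  exact eq_neg_of_add_eq_zero_right key

end Fermat.Agent.FF4.K1Out
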